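import Mathlib

/-!
# Local rings of an integral scheme as subrings of the function field, and points with values
in local rings
-/

set_option autoImplicit false

noncomputable section

open CategoryTheory AlgebraicGeometry IsLocalRing

universe u

namespace Fermat.Agent.S26T.Var

section LocalRings

variable (A : Scheme.{u}) [IsIntegral A]

/-- The local ring of `A` at `w` as a subring of the function field. -/
def O (w : A) : Subring A.functionField :=
  (algebraMap (A.presheaf.stalk w) A.functionField).range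

theorem algebraMap_stalk_injective (w : A) :
    Function.Injective (algebraMap (A.presheaf.stalk w) A.functionField) :=
  IsFractionRing.injective _ _

/-- The identification of the stalk with the subring of the function field. -/
def stalkEquiv (w : A) : A.presheaf.stalk w ≃+* O A w :=
  RingEquiv.ofBijective (algebraMap (A.presheaf.stalk w) A.functionField).rangeRestrict
    ⟨(RingHom.injective_codRestrict).mpr (algebraMap_stalk_injective A w),
      RingHom.rangeRestrict_surjective _⟩

@[simp] theorem coe_stalkEquiv (w : A) (x : A.presheaf.stalk w) :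
    (stalkEquiv A w x : A.functionField) = algebraMap _ _ x := rfl

instance isLocalRing_O (w : A) : IsLocalRing (O A w) :=
  (stalkEquiv A w).isLocalRing

theorem algebraMap_stalkSpecializes {w w' : A} (h : w ⤳ w') (x : A.presheaf.stalk w') :
    algebraMap (A.presheaf.stalk w) A.functionField
      ((A.presheaf.stalkSpecializes h).hom x) = algebraMap _ _ x := by
  change ((A.presheaf.stalkSpecializes h) ≫ (A.presheaf.stalkSpecializes _)).hom x = _
  rw [TopCat.Presheaf.stalkSpecializes_comp]
  rfl

theorem O_mono {w w' : A} (h : w ⤳ w') : O A w' ≤ O A w := by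
  rintro _ ⟨x, rfl⟩
  exact ⟨(A.presheaf.stalkSpecializes h).hom x, algebraMap_stalkSpecializes A h x⟩

theorem O_generic : O A (genericPoint A) = ⊤ := by
  rw [eq_top_iff]
  rintro x -
  refine ⟨x, ?_⟩
  change (A.presheaf.stalkSpecializes _).hom x = x
  rw [TopCat.Presheaf.stalkSpecializes_refl]
  rfl

instance isFractionRing_O (w : A) : IsFractionRing (O A w) A.functionField := by
  refine IsFractionRing.of_field _ _ fun z => ?_
  obtain ⟨x, y, hy, h⟩ := IsFractionRing.div_surjective (A := A.presheaf.stalk w) z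
  exact ⟨stalkEquiv A w x, stalkEquiv A w y, h.symm⟩

/-- Description of the local rings in an affine open. -/
theorem mem_O_iff {U : A.Opens} (hU : IsAffineOpen U) [Nonempty U] {w : A} (hw : w ∈ U)
    (x : A.functionField) :
    x ∈ O A w ↔ ∃ a b : Γ(A, U), w ∈ A.basicOpen b ∧
      x * algebraMap Γ(A, U) A.functionField b = algebraMap Γ(A, U) A.functionField a := by
  have hg : ∀ b : Γ(A, U), algebraMap Γ(A, U) A.functionField b =
      algebraMap (A.presheaf.stalk w) A.functionField (A.presheaf.germ U w hw b) := fun b =>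
    (Scheme.algebraMap_germ_eq_germToFunctionField A hw b).symm
  constructor
  · rintro ⟨y, rfl⟩
    let := TopCat.Presheaf.algebra_section_stalk A.presheaf (⟨w, hw⟩ : U)
    have h1 := hU.isLocalization_stalk ⟨w, hw⟩
    obtain ⟨a, b, rfl⟩ := IsLocalization.exists_mk'_eq
      (hU.primeIdealOf ⟨w, hw⟩).asIdeal.primeCompl y
    refine ⟨a, b, ?_, ?_⟩
    · rw [Scheme.mem_basicOpen A _ w hw]
      exact IsLocalization.map_units (A.presheaf.stalk w) b
    · rw [hg, hg, ← map_mul]
      congr 1
      exact IsLocalization.mk'_spec _ a b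
  · rintro ⟨a, b, hb, h⟩
    rw [Scheme.mem_basicOpen A _ w hw] at hb
    obtain ⟨u, hu⟩ := hb
    refine ⟨A.presheaf.germ U w hw a * ((u⁻¹ : (A.presheaf.stalk w)ˣ) : A.presheaf.stalk w), ?_⟩
    rw [map_mul, ← hg, ← h, mul_assoc, hg, ← map_mul, ← hu, Units.mul_inv, map_one, mul_one]

end LocalRings

section Points

variable {A : Scheme.{u}} [IsIntegral A]

/-- The morphism `Spec R ⟶ A` given by a homomorphism from a local ring of `A`. -/
def mk {R : Type u} [CommRing R] (w : A) (ψ : O A w →+* R) : Spec (.of R) ⟶ A :=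
  Spec.map (CommRingCat.ofHom (ψ.comp (stalkEquiv A w).toRingHom)) ≫ A.fromSpecStalk w

theorem map_mk {R S : Type u} [CommRing R] [CommRing S] (φ : R →+* S) (w : A)
    (ψ : O A w →+* R) : Spec.map (CommRingCat.ofHom φ) ≫ mk w ψ = mk w (φ.comp ψ) := by
  rw [mk, mk, ← Category.assoc, ← Spec.map_comp]
  rfl

theorem mk_comp_inclusion {R : Type u} [CommRing R] {w w' : A} (h : w ⤳ w')
    (ψ : O A w →+* R) : mk w' (ψ.comp (Subring.inclusion (O_mono A h))) = mk w ψ := by
  rw [mk, mk, ← Scheme.SpecMap_stalkSpecializes_fromSpecStalk h, ← Category.assoc,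
    ← Spec.map_comp]
  congr 2
  ext x
  change ψ _ = ψ _
  congr 1
  apply Subtype.ext
  change algebraMap _ A.functionField x =
    algebraMap _ A.functionField ((A.presheaf.stalkSpecializes h).hom x)
  rw [algebraMap_stalkSpecializes]

theorem mk_injective {R : Type u} [CommRing R] {w : A} {ψ ψ' : O A w →+* R}
    (h : mk w ψ = mk w ψ') : ψ = ψ' := by
  rw [mk, mk, cancel_mono] at h
  have h1 := congrArg CommRingCat.Hom.hom (Spec.map_injective h)
  ext x
  obtain ⟨y, rfl⟩ := (stalkEquiv A w).surjective x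
  exact congrArg (fun q => q y) h1

/-- The closed point of the spectrum of a local ring. -/
def cpt (R : Type u) [CommRing R] [IsLocalRing R] : (Spec (.of R) : Scheme.{u}) := closedPoint R

theorem map_cpt {R S : Type u} [CommRing R] [IsLocalRing R] [CommRing S] [IsLocalRing S]
    (φ : R →+* S) [IsLocalHom φ] : Spec.map (CommRingCat.ofHom φ) (cpt S) = cpt R :=
  IsLocalRing.comap_closedPoint φ

variable {R : Type u} [CommRing R] [IsLocalRing R]

theorem mk_cpt (w : A) (ψ : O A w →+* R) [IsLocalHom ψ] :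
    mk w ψ (cpt R) = w := by
  have h0 : IsLocalHom (stalkEquiv A w).toRingHom :=
    ⟨fun a ha => (MulEquiv.isUnit_map (stalkEquiv A w)).mp ha⟩
  have h1 : IsLocalHom (ψ.comp (stalkEquiv A w).toRingHom) :=
    RingHom.isLocalHom_comp _ _
  have h2 : Spec.map (CommRingCat.ofHom (ψ.comp (stalkEquiv A w).toRingHom)) (cpt R) =
    closedPoint (A.presheaf.stalk w) := IsLocalRing.comap_closedPoint _
  rw [mk, Scheme.Hom.comp_apply, h2, Scheme.fromSpecStalk_closedPoint]

/-- Every point with values in a local ring is given by a local homomorphism. -/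
theorem exists_eq_mk (Q : Spec (.of R) ⟶ A) :
    ∃ ψ : O A (Q (cpt R)) →+* R, IsLocalHom ψ ∧ mk _ ψ = Q := by
  obtain ⟨ψ₀, h1, h2⟩ : ∃ ψ₀ : (A.presheaf.stalk (Q (cpt R)) : Type u) →+* R, IsLocalHom ψ₀ ∧
      Spec.map (CommRingCat.ofHom ψ₀) ≫ A.fromSpecStalk (Q (cpt R)) = Q :=
    ⟨(Scheme.stalkClosedPointTo Q).hom, Scheme.isLocalHom_stalkClosedPointTo' Q,
      Scheme.Spec_stalkClosedPointTo_fromSpecStalk Q⟩
  have h0 : IsLocalHom (stalkEquiv A (Q (cpt R))).symm.toRingHom :=
    ⟨fun a ha => (MulEquiv.isUnit_map (stalkEquiv A _).symm).mp ha⟩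
  refine ⟨ψ₀.comp (stalkEquiv A _).symm.toRingHom, RingHom.isLocalHom_comp _ _, ?_⟩
  refine Eq.trans ?_ h2
  have h3 : (ψ₀.comp (stalkEquiv A (Q (cpt R))).symm.toRingHom).comp
      (stalkEquiv A (Q (cpt R))).toRingHom = ψ₀ := by
    ext x
    change ψ₀ ((stalkEquiv A _).symm (stalkEquiv A _ x)) = _
    rw [RingEquiv.symm_apply_apply]
  rw [mk, h3]

theorem mk_eq_mk_iff {w w' : A} (ψ : O A w →+* R) (ψ' : O A w' →+* R) [IsLocalHom ψ]
    [IsLocalHom ψ'] : mk w ψ = mk w' ψ' ↔
      w = w' ∧ ∀ x (h : x ∈ O A w) (h' : x ∈ O A w'), ψ ⟨x, h⟩ = ψ' ⟨x, h'⟩ := by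
  constructor
  · intro h
    have h1 : w = w' := by rw [← mk_cpt w ψ, ← mk_cpt w' ψ', h]
    subst h1
    rw [mk_injective h]
    exact ⟨rfl, fun _ _ _ => rfl⟩
  · rintro ⟨rfl, h⟩
    congr 1
    ext x
    exact h x.1 x.2 x.2

/-- A homomorphism from a local ring `O A w` to a local ring extends uniquely to a local
homomorphism on the local ring of a generization. -/
theorem exists_local (w : A) (ψ : O A w →+* R) :
    ∃ (w' : A) (h : w' ⤳ w) (ψ' : O A w' →+* R), IsLocalHom ψ' ∧ mk w' ψ' = mk w ψ ∧
      ψ'.comp (Subring.inclusion (O_mono A h)) = ψ := by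
  obtain ⟨ψ', h1, h2⟩ := exists_eq_mk (mk w ψ)
  have h3 : mk w ψ (cpt R) ⤳ w := by
    have h4 : mk w ψ (cpt R) ∈ Set.range (A.fromSpecStalk w) := by
      rw [mk, Scheme.Hom.comp_apply]
      exact ⟨_, rfl⟩
    rwa [Scheme.range_fromSpecStalk] at h4
  exact ⟨_, h3, ψ', h1, h2, mk_injective ((mk_comp_inclusion h3 ψ').trans h2)⟩

end Points

section Structure

variable {K : Type u} [CommRing K] {A : Scheme.{u}} [IsIntegral A] (f : A ⟶ Spec (.of K))

/-- The structure map `K → O_{A, w}`. -/
def algO (w : A) : K →+* O A w :=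
  (stalkEquiv A w).toRingHom.comp (Spec.preimage (A.fromSpecStalk w ≫ f)).hom

/-- The structure map `K → K(A)`. -/
def algF : K →+* A.functionField :=
  (O A (genericPoint A)).subtype.comp (algO f (genericPoint A))

theorem mk_comp {R : Type u} [CommRing R] (w : A) (ψ : O A w →+* R) :
    mk w ψ ≫ f = Spec.map (CommRingCat.ofHom (ψ.comp (algO f w))) := by
  rw [mk, Category.assoc, ← Spec.map_preimage (A.fromSpecStalk w ≫ f), ← Spec.map_comp]
  rfl

theorem algO_of_specializes {w w' : A} (h : w ⤳ w') :
    (Subring.inclusion (O_mono A h)).comp (algO f w') = algO f w := by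
  have h1 := mk_comp f w (RingHom.id _)
  rw [← mk_comp_inclusion h, mk_comp, RingHom.id_comp, RingHom.id_comp] at h1
  exact congrArg CommRingCat.Hom.hom (Spec.map_injective h1)

theorem coe_algO (w : A) (x : K) : (algO f w x : A.functionField) = algF f x := by
  rw [algF, RingHom.comp_apply,
    ← algO_of_specializes f ((genericPoint_spec A).specializes (Set.mem_univ w))]
  rfl

theorem mk_comp_eq_iff {R : Type u} [CommRing R] [Algebra K R] (w : A) (ψ : O A w →+* R) :
    mk w ψ ≫ f = Spec.map (CommRingCat.ofHom (algebraMap K R)) ↔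
      ∀ x, ψ (algO f w x) = algebraMap K R x := by
  rw [mk_comp]
  constructor
  · intro h x
    exact congrArg (fun q => q x) (congrArg CommRingCat.Hom.hom (Spec.map_injective h))
  · intro h
    congr 2
    ext x
    exact h x

end Structure

end Fermat.Agent.S26T.Var
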