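import Mathlib
import Fermat.Prelude.Def_JacJ1Iface
import Fermat.Prelude.Def_GoodReductionJacobian_RelativeGroupLawKernel
import Fermat.Agent.S26T.LocalRings

/-!
# The functor of points of a proper commutative group variety, in terms of the local rings
-/

set_option autoImplicit false

noncomputable section

open CategoryTheory AlgebraicGeometry IsLocalRing NeronModelInfra GoodReductionJacobian

universe u

namespace Fermat.Agent.S26T

/-- A proper integral commutative group scheme over a field. -/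
structure GVar (K : Type u) [Field K] where
  /-- the underlying scheme -/
  A : Scheme.{u}
  /-- the structure morphism -/
  f : A ⟶ Spec (.of K)
  [isIntegral : AlgebraicGeometry.IsIntegral A]
  [isProper : IsProper f]
  /-- the group law -/
  L : RelativeGroupLaw K f
  comm : L.IsCommutative

namespace GVar

attribute [instance] GVar.isIntegral GVar.isProper

variable {K : Type u} [Field K] (X : GVar K)

/-- The function field. -/
def F : Type u := X.A.functionField

instance : Field X.F := inferInstanceAs (Field X.A.functionField)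

instance : Algebra K X.F := (Var.algF X.f).toAlgebra

/-- The local ring at `w`, as a subalgebra of the function field. -/
def O (w : X.A) : Subalgebra K X.F where
  __ := Var.O X.A w
  algebraMap_mem' x := by
    change Var.algF X.f x ∈ Var.O X.A w
    rw [← Var.coe_algO X.f w]
    exact Subtype.property _

theorem mem_O {w : X.A} {x : X.F} : x ∈ X.O w ↔ (x : X.A.functionField) ∈ Var.O X.A w := Iff.rfl

/-- The identification of the two versions of the local ring. -/
def oEquiv (w : X.A) : X.O w ≃+* Var.O X.A w where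
  toFun x := ⟨x.1, x.2⟩
  invFun x := ⟨x.1, x.2⟩
  left_inv _ := rfl
  right_inv _ := rfl
  map_mul' _ _ := rfl
  map_add' _ _ := rfl

instance (w : X.A) : IsLocalRing (X.O w) := (X.oEquiv w).symm.isLocalRing

instance (w : X.A) : IsFractionRing (X.O w) X.F := by
  refine IsFractionRing.of_field _ _ fun z => ?_
  obtain ⟨x, y, hy, h⟩ := IsFractionRing.div_surjective (A := Var.O X.A w)
    (K := X.A.functionField) z
  exact ⟨(X.oEquiv w).symm x, (X.oEquiv w).symm y, h.symm⟩

theorem O_mono {w w' : X.A} (h : w ⤳ w') : X.O w' ≤ X.O w := Var.O_mono X.A h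

/-- The generic point. -/
def η : X.A := genericPoint X.A

theorem O_η : X.O X.η = ⊤ := by
  rw [eq_top_iff]
  intro x _
  rw [mem_O]
  exact (Var.O_generic X.A).ge trivial

theorem η_specializes (w : X.A) : X.η ⤳ w :=
  (genericPoint_spec X.A).specializes (Set.mem_univ w)

/-- Points with values in a `K`-algebra. -/
def Pt (R : Type u) [CommRing R] [Algebra K R] : Type u :=
  SchemeHomOver (Spec.map (CommRingCat.ofHom (algebraMap K R))) X.f

section Group

variable (R : Type u) [CommRing R] [Algebra K R]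

instance : Add (X.Pt R) := ⟨fun x y => X.L.mul _ x y⟩

instance : Zero (X.Pt R) := ⟨X.L.one _⟩

instance : Neg (X.Pt R) := ⟨fun x => X.L.inv _ x⟩

instance : AddCommGroup (X.Pt R) where
  add_assoc := X.L.mul_assoc _
  zero_add := X.L.one_mul _
  add_zero := X.L.mul_one _
  neg_add_cancel := X.L.inv_mul_cancel _
  add_comm := X.comm _
  nsmul := nsmulRec
  zsmul := zsmulRec

theorem add_def (x y : X.Pt R) : x + y = X.L.mul _ x y := rfl

theorem zero_def : (0 : X.Pt R) = X.L.one _ := rfl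

theorem nsmul_def (n : ℕ) (x : X.Pt R) : n • x = X.L.nsmul _ n x := by
  induction n with
  | zero => rw [zero_smul]; rfl
  | succ n ih =>
    rw [succ_nsmul]
    exact congrArg (fun y => X.L.mul _ y x) ih

end Group

section Functor

variable {R S T : Type u} [CommRing R] [CommRing S] [CommRing T] [Algebra K R] [Algebra K S]
  [Algebra K T]

theorem map_aux (φ : R →ₐ[K] S) : Spec.map (CommRingCat.ofHom φ.toRingHom) ≫
    Spec.map (CommRingCat.ofHom (algebraMap K R)) =
      Spec.map (CommRingCat.ofHom (algebraMap K S)) := by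
  rw [← Spec.map_comp, ← CommRingCat.ofHom_comp]
  congr 2
  exact φ.comp_algebraMap

/-- Functoriality of points. -/
def map (φ : R →ₐ[K] S) : X.Pt R →+ X.Pt S where
  toFun x := schemeHomOverComp (Spec.map (CommRingCat.ofHom φ.toRingHom)) (map_aux φ) x
  map_zero' := X.L.one_natural _ _ _ _
  map_add' x y := X.L.mul_natural _ _ _ _ x y

theorem map_coe (φ : R →ₐ[K] S) (x : X.Pt R) :
    (X.map φ x).1 = Spec.map (CommRingCat.ofHom φ.toRingHom) ≫ x.1 := rfl

theorem Pt.ext {x y : X.Pt R} (h : x.1 = y.1) : x = y := Subtype.ext h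

theorem map_map (ψ : S →ₐ[K] T) (φ : R →ₐ[K] S) (x : X.Pt R) :
    X.map ψ (X.map φ x) = X.map (ψ.comp φ) x := by
  apply Subtype.ext
  rw [map_coe, map_coe, map_coe, ← Category.assoc, ← Spec.map_comp, ← CommRingCat.ofHom_comp]
  rfl

theorem map_id (x : X.Pt R) : X.map (AlgHom.id K R) x = x := by
  apply Subtype.ext
  rw [map_coe]
  exact (congrArg (· ≫ x.1) (Spec.map_id (CommRingCat.of R))).trans (Category.id_comp _)

/-- Translation of homomorphisms. -/
def vHom {w : X.A} (ψ : X.O w →ₐ[K] R) : Var.O X.A w →+* R :=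
  ψ.toRingHom.comp (X.oEquiv w).symm.toRingHom

theorem vHom_apply {w : X.A} (ψ : X.O w →ₐ[K] R) (x : Var.O X.A w) :
    X.vHom ψ x = ψ ⟨x.1, x.2⟩ := rfl

theorem vHom_injective {w : X.A} {ψ ψ' : X.O w →ₐ[K] R} (h : X.vHom ψ = X.vHom ψ') : ψ = ψ' := by
  ext x
  exact congrArg (fun q => q (X.oEquiv w x)) h

theorem algO_eq (w : X.A) (x : K) :
    (X.oEquiv w).symm (Var.algO X.f w x) = algebraMap K (X.O w) x :=
  Subtype.ext (Var.coe_algO X.f w x)

theorem vHom_algO {w : X.A} (ψ : X.O w →ₐ[K] R) (x : K) :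
    X.vHom ψ (Var.algO X.f w x) = algebraMap K R x := by
  rw [← ψ.commutes, ← X.algO_eq]
  rfl

/-- The point given by a homomorphism from a local ring. -/
def point (w : X.A) (ψ : X.O w →ₐ[K] R) : X.Pt R :=
  ⟨Var.mk (A := X.A) w (X.vHom ψ), (Var.mk_comp_eq_iff X.f w _).mpr (X.vHom_algO ψ)⟩

theorem point_coe (w : X.A) (ψ : X.O w →ₐ[K] R) : (X.point w ψ).1 = Var.mk w (X.vHom ψ) := rfl

theorem map_point (φ : R →ₐ[K] S) (w : X.A) (ψ : X.O w →ₐ[K] R) :
    X.map φ (X.point w ψ) = X.point w (φ.comp ψ) :=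
  Subtype.ext (Var.map_mk φ.toRingHom w (X.vHom ψ))

theorem point_comp_inclusion {w w' : X.A} (h : w ⤳ w') (ψ : X.O w →ₐ[K] R) :
    X.point w' (ψ.comp (Subalgebra.inclusion (X.O_mono h))) = X.point w ψ :=
  Subtype.ext (Var.mk_comp_inclusion h (X.vHom ψ))

theorem point_injective {w : X.A} {ψ ψ' : X.O w →ₐ[K] R}
    (h : X.point w ψ = X.point w ψ') : ψ = ψ' :=
  X.vHom_injective (Var.mk_injective (congrArg Subtype.val h))

theorem isLocalHom_vHom {w : X.A} (ψ : X.O w →ₐ[K] R) (h : IsLocalHom ψ.toRingHom) :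
    IsLocalHom (X.vHom ψ) := by
  have h0 : IsLocalHom (X.oEquiv w).symm.toRingHom :=
    ⟨fun a ha => (MulEquiv.isUnit_map (X.oEquiv w).symm).mp ha⟩
  exact RingHom.isLocalHom_comp _ _

theorem exists_vHom_eq {w : X.A} (ψ : Var.O X.A w →+* R)
    (h3 : ∀ x, ψ (Var.algO X.f _ x) = algebraMap K R x) :
    ∃ ψ' : X.O w →ₐ[K] R, X.vHom ψ' = ψ := by
  refine ⟨⟨ψ.comp (X.oEquiv w).toRingHom, fun x => ?_⟩, ?_⟩
  · rw [← h3, ← X.algO_eq]
    rfl
  · ext x
    rfl

theorem isLocalHom_of_vHom {w : X.A} (ψ : X.O w →ₐ[K] R) (h : IsLocalHom (X.vHom ψ)) :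
    IsLocalHom ψ.toRingHom := by
  have h0 : IsLocalHom (X.oEquiv w).toRingHom :=
    ⟨fun a ha => (MulEquiv.isUnit_map (X.oEquiv w)).mp ha⟩
  exact RingHom.isLocalHom_comp (X.vHom ψ) (X.oEquiv w).toRingHom

variable [IsLocalRing R]

/-- The image of the closed point. -/
def pt (Q : X.Pt R) : X.A := Q.1 (Var.cpt R)

theorem pt_point (w : X.A) (ψ : X.O w →ₐ[K] R) (h : IsLocalHom ψ.toRingHom) :
    X.pt (X.point w ψ) = w :=
  have := X.isLocalHom_vHom ψ h
  Var.mk_cpt w (X.vHom ψ)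

theorem exists_eq_point' (Q : X.Pt R) : ∃ ψ : X.O (X.pt Q) →ₐ[K] R,
    IsLocalHom ψ.toRingHom ∧ X.point _ ψ = Q := by
  obtain ⟨ψ, h1, h2⟩ := Var.exists_eq_mk Q.1
  have h3 : ∀ x, ψ (Var.algO X.f _ x) = algebraMap K R x :=
    (Var.mk_comp_eq_iff X.f _ ψ).mp (by rw [h2]; exact Q.2)
  obtain ⟨ψ', rfl⟩ := X.exists_vHom_eq ψ h3
  exact ⟨ψ', X.isLocalHom_of_vHom _ h1, Subtype.ext h2⟩

theorem exists_eq_point (Q : X.Pt R) : ∃ (w : X.A) (ψ : X.O w →ₐ[K] R),
    IsLocalHom ψ.toRingHom ∧ X.point w ψ = Q := ⟨_, X.exists_eq_point' Q⟩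

theorem point_eq_point_iff {w w' : X.A} (ψ : X.O w →ₐ[K] R) (ψ' : X.O w' →ₐ[K] R)
    (h : IsLocalHom ψ.toRingHom) (h' : IsLocalHom ψ'.toRingHom) :
    X.point w ψ = X.point w' ψ' ↔
      w = w' ∧ ∀ x (h : x ∈ X.O w) (h' : x ∈ X.O w'), ψ ⟨x, h⟩ = ψ' ⟨x, h'⟩ := by
  have h1 := X.isLocalHom_vHom ψ h
  have h2 := X.isLocalHom_vHom ψ' h'
  have h3 := Var.mk_eq_mk_iff (X.vHom ψ) (X.vHom ψ')
  exact Subtype.ext_iff.trans h3

theorem exists_local (w : X.A) (ψ : X.O w →ₐ[K] R) :
    ∃ (w' : X.A) (h : w' ⤳ w) (ψ' : X.O w' →ₐ[K] R), IsLocalHom ψ'.toRingHom ∧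
      X.point w' ψ' = X.point w ψ ∧ ψ'.comp (Subalgebra.inclusion (X.O_mono h)) = ψ := by
  have h3 : X.pt (X.point w ψ) ⤳ w := by
    obtain ⟨w', h, ψ', h1, h2, h3⟩ := Var.exists_local w (X.vHom ψ)
    have h4 : w' = X.pt (X.point w ψ) := by
      rw [← Var.mk_cpt w' ψ', h2]
      rfl
    exact h4 ▸ h
  obtain ⟨ψ', h1, h2⟩ := X.exists_eq_point' (X.point w ψ)
  exact ⟨_, h3, ψ', h1, h2, X.point_injective ((X.point_comp_inclusion h3 ψ').trans h2)⟩

end Functor

end GVar

end Fermat.Agent.S26T
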