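import Mathlib

set_option autoImplicit false

open MvPowerSeries

namespace Fermat.Agent.S26T.PowerSeriesUFD

section Weierstrass

/-- A monic divisor of a distinguished polynomial is distinguished. -/
theorem isDistinguishedAt_of_mul {A : Type*} [CommRing A]
    {F G H : Polynomial A} {I : Ideal A} [I.IsPrime]
    (hF : F.IsDistinguishedAt I) (hG : G.Monic) (h : F = G * H) :
    G.IsDistinguishedAt I := by
  have hF' : F.map (Ideal.Quotient.mk I) = Polynomial.X ^ F.natDegree := by
    ext k
    rw [Polynomial.coeff_map, Polynomial.coeff_X_pow]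
    split_ifs with hk
    · rw [hk]
      have := hF.monic.coeff_natDegree
      rw [this, map_one]
    · rcases lt_or_gt_of_ne hk with hk | hk
      · exact Ideal.Quotient.eq_zero_iff_mem.mpr (hF.mem hk)
      · rw [Polynomial.coeff_eq_zero_of_natDegree_lt hk, map_zero]
  have hmul : G.map (Ideal.Quotient.mk I) * H.map (Ideal.Quotient.mk I) =
      Polynomial.X ^ F.natDegree := by
    rw [← Polynomial.map_mul, ← h, hF']
  obtain ⟨i, -, hi⟩ := (dvd_prime_pow Polynomial.prime_X _).mp
    (Dvd.intro _ hmul)
  have hGm : (G.map (Ideal.Quotient.mk I)).Monic := hG.map _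
  have hGX : G.map (Ideal.Quotient.mk I) = Polynomial.X ^ i :=
    Polynomial.eq_of_monic_of_associated hGm (Polynomial.monic_X_pow i) hi
  have hdeg : G.natDegree = i := by
    have := hG.natDegree_map (Ideal.Quotient.mk I)
    rw [hGX, Polynomial.natDegree_X_pow] at this
    exact this.symm
  refine ⟨⟨fun {k} hk => ?_⟩, hG⟩
  rw [← Ideal.Quotient.eq_zero_iff_mem, ← Polynomial.coeff_map, hGX, Polynomial.coeff_X_pow,
    if_neg (by omega)]

variable {A : Type*} [CommRing A] [IsDomain A] [IsLocalRing A]
  [IsAdicComplete (IsLocalRing.maximalIdeal A) A]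

/-- If `A` is a complete local UFD, a power series over `A` with nonzero reduction is divisible
by a prime lying in any given prime ideal containing it. -/
theorem exists_prime_mem_of_map_ne_zero [UniqueFactorizationMonoid A]
    (P : Ideal (PowerSeries A)) [hP : P.IsPrime] (g : PowerSeries A) (hg : g ∈ P)
    (hg0 : PowerSeries.map (IsLocalRing.residue A) g ≠ 0) : ∃ x ∈ P, Prime x := by
  classical
  obtain ⟨F, h, hfac⟩ := PowerSeries.exists_isWeierstrassFactorization hg0
  -- the contraction of `P` to `A[X]`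
  set φ : Polynomial A →+* PowerSeries A := Polynomial.coeToPowerSeries.ringHom with hφ
  set Q : Ideal (Polynomial A) := P.comap φ with hQ
  have hQprime : Q.IsPrime := Ideal.comap_isPrime φ P
  have hFQ : F ∈ Q := by
    rw [hQ, Ideal.mem_comap]
    have hgF : g = φ F * h := hfac.eq_mul
    have : φ F * h ∈ P := hgF ▸ hg
    rcases hP.mem_or_mem this with h1 | h1
    · exact h1
    · exact absurd (P.eq_top_of_isUnit_mem h1 hfac.isUnit) hP.ne_top
  have hFmonic : F.Monic := hfac.isDistinguishedAt.monic
  have hF0 : F ≠ 0 := hFmonic.ne_zero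
  obtain ⟨G, hGQ, hGprime, hGF⟩ : ∃ G ∈ Q, Prime G ∧ G ∣ F := by
    have := UniqueFactorizationMonoid.exists_prime_factors F hF0
    obtain ⟨f, hf, hassoc⟩ := this
    have hprod : f.prod ∈ Q := by
      obtain ⟨u, hu⟩ := hassoc.symm
      rw [← hu]
      exact Q.mul_mem_right _ hFQ
    obtain ⟨G, hG, hGQ⟩ := (hQprime.multiset_prod_mem_iff_exists_mem f).mp hprod
    exact ⟨G, hGQ, hf G hG, (Multiset.dvd_prod hG).trans hassoc.dvd⟩
  -- normalise `G` to be monic
  obtain ⟨H, hH⟩ := hGF
  have hlead : G.leadingCoeff * H.leadingCoeff = 1 := by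
    rw [← Polynomial.leadingCoeff_mul, ← hH, hFmonic.leadingCoeff]
  set G' : Polynomial A := Polynomial.C H.leadingCoeff * G with hG'
  set H' : Polynomial A := Polynomial.C G.leadingCoeff * H with hH'
  have hG'm : G'.Monic := by
    rw [Polynomial.Monic, hG', Polynomial.leadingCoeff_mul, Polynomial.leadingCoeff_C, mul_comm]
    exact hlead
  have hprod : F = G' * H' := by
    rw [hG', hH', hH]
    calc G * H = Polynomial.C (G.leadingCoeff * H.leadingCoeff) * (G * H) := by
          rw [hlead, Polynomial.C_1, one_mul]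
      _ = _ := by rw [Polynomial.C_mul]; ring
  have hG'prime : Prime G' := by
    have hu : IsUnit (Polynomial.C H.leadingCoeff) :=
      Polynomial.isUnit_C.mpr (IsUnit.of_mul_eq_one _ (by rw [mul_comm]; exact hlead))
    exact (associated_unit_mul_left G _ hu).symm.prime hGprime
  have hdist : G'.IsDistinguishedAt (IsLocalRing.maximalIdeal A) :=
    isDistinguishedAt_of_mul hfac.isDistinguishedAt hG'm hprod
  refine ⟨φ G', ?_, ?_⟩
  · have : G' ∈ Q := Q.mul_mem_left _ hGQ
    exact this
  · have e := hdist.algEquivQuotient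
    have hne : φ G' ≠ 0 := by
      intro h0
      apply hG'prime.ne_zero
      have : Function.Injective φ := Polynomial.coe_injective A
      exact this (by rw [h0, map_zero])
    rw [← Ideal.span_singleton_prime hne]
    have h1 : (Ideal.span {G'}).IsPrime := (Ideal.span_singleton_prime hG'prime.ne_zero).mpr hG'prime
    have h2 : IsDomain (Polynomial A ⧸ Ideal.span {G'}) := Ideal.Quotient.isDomain _
    have h3 : IsDomain (PowerSeries A ⧸ Ideal.span {φ G'}) :=
      MulEquiv.isDomain _ e.symm.toMulEquiv
    exact (Ideal.Quotient.isDomain_iff_prime _).mp h3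

end Weierstrass

section Shear

variable {K : Type*} [Field K] {n : ℕ}

/-- The images of the variables under the shear `X₀ ↦ X₀`, `X_{i+1} ↦ X_{i+1} + a_i X₀`. -/
noncomputable def shearVar (a : Fin n → K) : Fin (n + 1) → MvPowerSeries (Fin (n + 1)) K :=
  Fin.cons (X 0) (fun i => X i.succ + a i • X 0)

theorem constantCoeff_shearVar (a : Fin n → K) (s : Fin (n + 1)) :
    constantCoeff (shearVar a s) = 0 := by
  refine Fin.cases ?_ (fun i => ?_) s
  · simp [shearVar]
  · simp [shearVar]

theorem hasSubst_shearVar (a : Fin n → K) : HasSubst (shearVar a) :=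
  hasSubst_of_constantCoeff_zero (constantCoeff_shearVar a)

/-- The shear substitution. -/
noncomputable def shear (a : Fin n → K) :
    MvPowerSeries (Fin (n + 1)) K →ₐ[K] MvPowerSeries (Fin (n + 1)) K :=
  substAlgHom (hasSubst_shearVar a)

theorem shear_X (a : Fin n → K) (s : Fin (n + 1)) : shear a (X s) = shearVar a s := by
  rw [shear, substAlgHom_X]

theorem subst_shearVar_shearVar_neg (a : Fin n → K) :
    (fun s => subst (shearVar a) (shearVar (-a) s)) =
      (X : Fin (n + 1) → MvPowerSeries (Fin (n + 1)) K) := by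
  funext s
  have h := coe_substAlgHom (R := K) (hasSubst_shearVar a)
  rw [← h]
  change shear a (shearVar (-a) s) = X s
  refine Fin.cases ?_ (fun i => ?_) s
  · have e1 : shearVar (-a) 0 = X 0 := by simp [shearVar]
    rw [e1, shear_X]
    simp [shearVar]
  · have e1 : shearVar (-a) i.succ = X i.succ + (-a) i • X 0 := by simp [shearVar]
    rw [e1, map_add, map_smul, shear_X, shear_X]
    simp [shearVar]

theorem shear_comp_shear_neg (a : Fin n → K) (f : MvPowerSeries (Fin (n + 1)) K) :
    shear a (shear (-a) f) = f := by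
  have h := coe_substAlgHom (R := K) (hasSubst_shearVar a)
  rw [shear, shear, substAlgHom_comp_substAlgHom_apply, substAlgHom_apply, h,
    subst_shearVar_shearVar_neg, subst_self]
  rfl

theorem shear_neg_comp_shear (a : Fin n → K) (f : MvPowerSeries (Fin (n + 1)) K) :
    shear (-a) (shear a f) = f := by
  have := shear_comp_shear_neg (-a) f
  rwa [neg_neg] at this

/-- The shear automorphism. -/
noncomputable def shearEquiv (a : Fin n → K) :
    MvPowerSeries (Fin (n + 1)) K ≃+* MvPowerSeries (Fin (n + 1)) K :=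
  RingEquiv.ofRingHom (shear a).toRingHom (shear (-a)).toRingHom
    (RingHom.ext (shear_comp_shear_neg a)) (RingHom.ext (shear_neg_comp_shear a))

theorem shearEquiv_apply (a : Fin n → K) (f : MvPowerSeries (Fin (n + 1)) K) :
    shearEquiv a f = subst (shearVar a) f := by
  change shear a f = _
  rw [shear, substAlgHom_apply]

/-- restriction to the `X₀`-axis. -/
noncomputable def axis : MvPowerSeries (Fin (n + 1)) K →+* PowerSeries K :=
  (PowerSeries.map (constantCoeff (σ := Fin n) (R := K))).comp
    (MvPowerSeries.finSuccEquiv K n).toRingEquiv.toRingHom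

theorem coeff_axis (d : ℕ) (f : MvPowerSeries (Fin (n + 1)) K) :
    PowerSeries.coeff d (axis f) = coeff (Finsupp.cons d (0 : Fin n →₀ ℕ)) f := by
  rw [← coeff_coeff_finSuccEquiv]
  simp [axis]

theorem axis_X_zero : axis (X (0 : Fin (n + 1)) : MvPowerSeries (Fin (n + 1)) K) = PowerSeries.X := by
  simp [axis, finSuccEquiv_X_zero]

theorem axis_X_succ (i : Fin n) :
    axis (X i.succ : MvPowerSeries (Fin (n + 1)) K) = 0 := by
  simp [axis, finSuccEquiv_X_succ]

theorem axis_smul (c : K) (f : MvPowerSeries (Fin (n + 1)) K) :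
    axis (c • f) = c • axis f := by
  ext d
  rw [PowerSeries.coeff_smul, coeff_axis, coeff_axis, MvPowerSeries.coeff_smul, smul_eq_mul]

theorem axis_shearVar_zero (a : Fin n → K) : axis (shearVar a 0) = PowerSeries.X := by
  simp [shearVar, axis_X_zero]

theorem axis_shearVar_succ (a : Fin n → K) (i : Fin n) :
    axis (shearVar a i.succ) = a i • PowerSeries.X := by
  simp only [shearVar, Fin.cons_succ, map_add, axis_X_succ, axis_smul, axis_X_zero, zero_add]

theorem axis_prod (a : Fin n → K) (α : Fin (n + 1) →₀ ℕ) :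
    axis (α.prod fun s e => shearVar a s ^ e) =
      (∏ i : Fin n, a i ^ α i.succ) • PowerSeries.X ^ α.degree := by
  rw [Finsupp.prod_fintype _ _ (fun i => pow_zero _), map_prod, Fin.prod_univ_succ, map_pow,
    axis_shearVar_zero]
  simp_rw [map_pow, axis_shearVar_succ, smul_pow]
  rw [Finset.prod_smul, Finset.prod_pow_eq_pow_sum, mul_smul_comm, ← pow_add,
    Finsupp.degree_eq_sum, Fin.sum_univ_succ]

/-- The polynomial in `a` giving the coefficient of `X₀ ^ d` in `f (X₀, a X₀)`. -/
noncomputable def axisPoly (f : MvPowerSeries (Fin (n + 1)) K) (d : ℕ) : MvPolynomial (Fin n) K :=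
  ∑ α ∈ Finset.finsuppAntidiag Finset.univ d,
    MvPolynomial.monomial (Finsupp.tail α) (coeff α f)

theorem mem_antidiag_iff (α : Fin (n + 1) →₀ ℕ) (d : ℕ) :
    α ∈ Finset.finsuppAntidiag Finset.univ d ↔ α.degree = d := by
  rw [Finset.mem_finsuppAntidiag, Finsupp.degree_eq_sum]
  simp

theorem coeff_axisPoly (f : MvPowerSeries (Fin (n + 1)) K) (α : Fin (n + 1) →₀ ℕ) :
    (axisPoly f α.degree).coeff (Finsupp.tail α) = coeff α f := by
  classical
  rw [axisPoly, MvPolynomial.coeff_sum, Finset.sum_eq_single α]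
  · rw [MvPolynomial.coeff_monomial, if_pos rfl]
  · intro β hβ hne
    rw [MvPolynomial.coeff_monomial, if_neg]
    intro htail
    apply hne
    have hdeg : β.degree = α.degree := (mem_antidiag_iff β _).mp hβ
    rw [Finsupp.degree_eq_sum, Finsupp.degree_eq_sum, Fin.sum_univ_succ, Fin.sum_univ_succ] at hdeg
    have hs : ∀ i : Fin n, β i.succ = α i.succ := fun i => by
      have := DFunLike.congr_fun htail i
      simpa [Finsupp.tail_apply] using this
    have h0 : β 0 = α 0 := by
      have : ∑ i : Fin n, β i.succ = ∑ i : Fin n, α i.succ :=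
        Finset.sum_congr rfl fun i _ => hs i
      omega
    ext s
    refine Fin.cases h0 (fun i => hs i) s
  · intro h
    exact absurd ((mem_antidiag_iff α _).mpr rfl) h

theorem coeff_axis_shear (a : Fin n → K) (f : MvPowerSeries (Fin (n + 1)) K) (d : ℕ) :
    PowerSeries.coeff d (axis (shearEquiv a f)) = MvPolynomial.eval a (axisPoly f d) := by
  classical
  rw [coeff_axis, shearEquiv_apply, coeff_subst (hasSubst_shearVar a), axisPoly, map_sum]
  have key : ∀ α : Fin (n + 1) →₀ ℕ,
      coeff α f • coeff (Finsupp.cons d (0 : Fin n →₀ ℕ)) (α.prod fun s e => shearVar a s ^ e) =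
      if α.degree = d then MvPolynomial.eval a (MvPolynomial.monomial (Finsupp.tail α) (coeff α f))
      else 0 := by
    intro α
    rw [← coeff_axis, axis_prod, PowerSeries.coeff_smul, PowerSeries.coeff_X_pow]
    by_cases h : α.degree = d
    · rw [if_pos h, if_pos h.symm, MvPolynomial.eval_monomial,
        Finsupp.prod_fintype _ _ (fun i => pow_zero _)]
      simp [Finsupp.tail_apply]
    · rw [if_neg h, if_neg (fun h' => h h'.symm)]
      simp
  rw [finsum_congr key, finsum_eq_sum_of_support_subset (s := Finset.finsuppAntidiag Finset.univ d)]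
  · refine Finset.sum_congr rfl fun α hα => ?_
    rw [if_pos ((mem_antidiag_iff α d).mp hα)]
  · intro α hα
    rw [Function.mem_support] at hα
    rw [Finset.mem_coe, mem_antidiag_iff]
    by_contra h
    exact hα (if_neg h)

theorem exists_axis_shear_ne_zero [Infinite K] {f : MvPowerSeries (Fin (n + 1)) K} (hf : f ≠ 0) :
    ∃ a : Fin n → K, axis (shearEquiv a f) ≠ 0 := by
  obtain ⟨α, hα⟩ : ∃ α, coeff α f ≠ 0 := by
    by_contra! h
    exact hf (MvPowerSeries.ext h)
  have hP : axisPoly f α.degree ≠ 0 := by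
    intro h0
    apply hα
    rw [← coeff_axisPoly, h0, MvPolynomial.coeff_zero]
  obtain ⟨a, ha⟩ : ∃ a : Fin n → K, MvPolynomial.eval a (axisPoly f α.degree) ≠ 0 := by
    by_contra! h
    exact hP (MvPolynomial.funext fun a => by rw [h a, map_zero])
  refine ⟨a, fun h0 => ha ?_⟩
  rw [← coeff_axis_shear, h0, map_zero]

end Shear

section Local

variable {K : Type*} [Field K] {n : ℕ}

theorem mem_maximalIdeal_iff {σ : Type*} (f : MvPowerSeries σ K) :
    f ∈ IsLocalRing.maximalIdeal (MvPowerSeries σ K) ↔ constantCoeff f = 0 := by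
  rw [IsLocalRing.mem_maximalIdeal, mem_nonunits_iff, MvPowerSeries.isUnit_iff_constantCoeff,
    isUnit_iff_ne_zero, not_not]

theorem le_order_iff {σ : Type*} (f : MvPowerSeries σ K) (T : ℕ) :
    (T : ℕ∞) ≤ f.order ↔ ∀ α : σ →₀ ℕ, α.degree < T → coeff α f = 0 :=
  ⟨fun h α hα => coeff_of_lt_order (lt_of_lt_of_le (by exact_mod_cast hα) h),
    fun h => nat_le_order h⟩

/-- A power series of order at least `T` lies in the `T`-th power of the ideal of variables. -/
theorem mem_span_X_pow_of_le_order {σ : Type*} [Finite σ] (f : MvPowerSeries σ K) (T : ℕ)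
    (h : (T : ℕ∞) ≤ f.order) :
    f ∈ (Ideal.span (Set.range X) : Ideal (MvPowerSeries σ K)) ^ T := by
  classical
  have := Fintype.ofFinite σ
  rw [le_order_iff] at h
  have hch : ∀ α : σ →₀ ℕ, ∃ β : σ →₀ ℕ, T ≤ α.degree → β ≤ α ∧ β.degree = T := by
    intro α
    by_cases hα : T ≤ α.degree
    · obtain ⟨β, h1, h2⟩ := Finsupp.exists_le_degree_eq α T hα
      exact ⟨β, fun _ => ⟨h1, h2⟩⟩
    · exact ⟨0, fun h => absurd h hα⟩
  choose c hc using hch
  set S : Finset (σ →₀ ℕ) := Finset.finsuppAntidiag Finset.univ T with hS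
  have hmemS : ∀ β : σ →₀ ℕ, β ∈ S ↔ β.degree = T := by
    intro β
    rw [hS, Finset.mem_finsuppAntidiag, Finsupp.degree_eq_sum]
    simp
  let F : (σ →₀ ℕ) → MvPowerSeries σ K := fun β γ =>
    if c (β + γ) = β then coeff (β + γ) f else 0
  have hF : ∀ β γ, coeff γ (F β) = if c (β + γ) = β then coeff (β + γ) f else 0 :=
    fun β γ => rfl
  have hsum : f = ∑ β ∈ S, monomial β (1 : K) * F β := by
    ext α
    rw [map_sum]
    simp_rw [coeff_monomial_mul, one_mul, hF]
    by_cases hα : T ≤ α.degree
    · obtain ⟨h1, h2⟩ := hc α hα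
      rw [Finset.sum_eq_single (c α)]
      · rw [if_pos h1, add_tsub_cancel_of_le h1, if_pos rfl]
      · intro β _ hne
        split_ifs with h3 h4
        · rw [add_tsub_cancel_of_le h3] at h4
          exact absurd h4.symm hne
        · rfl
        · rfl
      · intro h3
        exact absurd ((hmemS _).mpr h2) h3
    · rw [h α (not_le.mp hα)]
      symm
      apply Finset.sum_eq_zero
      intro β hβ
      rw [if_neg]
      intro hle
      apply hα
      rw [← (hmemS β).mp hβ]
      exact Finsupp.degree_mono hle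
  rw [hsum]
  refine Ideal.sum_mem _ fun β hβ => Ideal.mul_mem_right _ _ ?_
  rw [← (hmemS β).mp hβ, Finsupp.degree_eq_sum]
  have : monomial β (1 : K) = ∏ i : σ, (X i : MvPowerSeries σ K) ^ β i := by
    rw [MvPowerSeries.monomial_one_eq, Finsupp.prod_fintype _ _ (fun i => pow_zero _)]
  rw [this, ← Finset.prod_pow_eq_pow_sum]
  exact Ideal.prod_mem_prod fun i _ => Ideal.pow_mem_pow (Ideal.subset_span (Set.mem_range_self i)) _

theorem maximalIdeal_eq_span {σ : Type*} [Finite σ] :
    IsLocalRing.maximalIdeal (MvPowerSeries σ K) = Ideal.span (Set.range X) := by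
  apply le_antisymm
  · intro f hf
    rw [mem_maximalIdeal_iff] at hf
    have := mem_span_X_pow_of_le_order f 1 (by
      rw [Nat.cast_one, one_le_order_iff_constCoeff_eq_zero]; exact hf)
    rwa [pow_one] at this
  · rw [Ideal.span_le]
    rintro _ ⟨i, rfl⟩
    rw [SetLike.mem_coe, mem_maximalIdeal_iff]
    simp

theorem mem_maximalIdeal_pow_iff {σ : Type*} [Finite σ] (f : MvPowerSeries σ K) (T : ℕ) :
    f ∈ IsLocalRing.maximalIdeal (MvPowerSeries σ K) ^ T ↔ (T : ℕ∞) ≤ f.order := by
  constructor
  · intro hf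
    induction T generalizing f with
    | zero => simp
    | succ T ih =>
      rw [pow_succ] at hf
      refine Submodule.mul_induction_on hf (fun a ha b hb => ?_) (fun a b ha hb => ?_)
      · have h1 := ih a ha
        have h2 : (1 : ℕ∞) ≤ b.order := by
          rw [one_le_order_iff_constCoeff_eq_zero]
          exact (mem_maximalIdeal_iff b).mp hb
        push_cast
        exact (add_le_add h1 h2).trans le_order_mul
      · exact (le_min ha hb).trans min_order_le_add
  · intro h
    rw [maximalIdeal_eq_span]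
    exact mem_span_X_pow_of_le_order f T h

instance isAdicComplete_maximalIdeal {σ : Type*} [Finite σ] :
    IsAdicComplete (IsLocalRing.maximalIdeal (MvPowerSeries σ K)) (MvPowerSeries σ K) := by
  rw [maximalIdeal_eq_span]
  infer_instance

instance isDomain_mvPowerSeries {σ : Type*} : IsDomain (MvPowerSeries σ K) :=
  NoZeroDivisors.to_isDomain _

end Local

section UFD

variable {K : Type*} [Field K] [Infinite K]

theorem ufd_fin (n : ℕ) : UniqueFactorizationMonoid (MvPowerSeries (Fin n) K) := by
  induction n with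
  | zero =>
    have e : MvPowerSeries (Fin 0) K ≃ₐ[K] K := MvPowerSeries.isEmptyEquiv (Fin 0) K
    exact MulEquiv.uniqueFactorizationMonoid e.symm.toMulEquiv inferInstance
  | succ n ih =>
    rw [UniqueFactorizationMonoid.iff_exists_prime_mem_of_isPrime]
    intro P hP0 hP
    obtain ⟨f, hfP, hf0⟩ := Submodule.exists_mem_ne_zero_of_ne_bot hP0
    obtain ⟨a, ha⟩ := exists_axis_shear_ne_zero hf0
    let E : MvPowerSeries (Fin (n + 1)) K ≃+* PowerSeries (MvPowerSeries (Fin n) K) :=
      (shearEquiv a).trans (MvPowerSeries.finSuccEquiv K n).toRingEquiv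
    set Q : Ideal (PowerSeries (MvPowerSeries (Fin n) K)) := P.comap E.symm.toRingHom with hQ
    have hQp : Q.IsPrime := Ideal.comap_isPrime _ P
    have hmemQ : ∀ x, x ∈ Q ↔ E.symm x ∈ P := fun x => Iff.rfl
    have hEf : E f ∈ Q := by
      rw [hmemQ, RingEquiv.symm_apply_apply]
      exact hfP
    have hne : PowerSeries.map (IsLocalRing.residue (MvPowerSeries (Fin n) K)) (E f) ≠ 0 := by
      intro h0
      apply ha
      ext d
      rw [coeff_axis, ← coeff_coeff_finSuccEquiv, map_zero]
      have h1 := congrArg (PowerSeries.coeff d) h0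
      rw [PowerSeries.coeff_map, map_zero, IsLocalRing.residue_eq_zero_iff,
        mem_maximalIdeal_iff] at h1
      exact h1
    obtain ⟨x, hxQ, hx⟩ := exists_prime_mem_of_map_ne_zero Q (E f) hEf hne
    refine ⟨E.symm x, (hmemQ x).mp hxQ, ?_⟩
    exact (MulEquiv.prime_iff E.symm.toMulEquiv).mpr hx

/-- Power series rings in finitely many variables over an infinite field are factorial. -/
theorem ufd (σ : Type*) [Finite σ] : UniqueFactorizationMonoid (MvPowerSeries σ K) := by
  have := Fintype.ofFinite σ
  have := ufd_fin (K := K) (Fintype.card σ)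
  exact MulEquiv.uniqueFactorizationMonoid
    (MvPowerSeries.renameEquiv K (Fintype.equivFin σ)).symm.toMulEquiv this

end UFD

end Fermat.Agent.S26T.PowerSeriesUFD
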