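import Mathlib
import Fermat.Agent.S26T.PowerSeriesUFD

/-!
# Formal coordinates at rational points of standard smooth algebras

For a standard smooth `K`-algebra `B` of relative dimension `g` and a `K`-point `w : B → K` we
construct a flat homomorphism `B → K⟦z₁, …, z_g⟧` inducing `w` on residue fields.
-/

set_option autoImplicit false

noncomputable section

open MvPowerSeries TensorProduct

universe u v

namespace Fermat.Agent.S26T.SmoothCoords

open Fermat.Agent.S26T.PowerSeriesUFD

section Flatness

theorem lift_one_tmul_aux (P B S : Type*) [CommRing P] [CommRing B] [CommRing S]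
    [Algebra P B] [Algebra P S] [Algebra B S] [IsScalarTower P B S] (x : S) :
    Algebra.TensorProduct.lift (Algebra.ofId B S) (AlgHom.id P S)
    (fun _ _ => Commute.all _ _) (1 ⊗ₜ[P] x) = x := by
  rw [Algebra.TensorProduct.lift_tmul, map_one, one_mul, AlgHom.id_apply]

attribute [local instance] Algebra.TensorProduct.rightAlgebra in
/-- If `B` is étale over `P` then a `B`-algebra flat over `P` is flat over `B`. -/
theorem flat_of_etale (P B S : Type*) [CommRing P] [CommRing B] [CommRing S]
    [Algebra P B] [Algebra P S] [Algebra B S] [IsScalarTower P B S] [Algebra.Etale P B]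
    [Module.Flat P S] : Module.Flat B S := by
  have h1 : Algebra.Etale S (B ⊗[P] S) :=
    Algebra.Etale.of_equiv (Algebra.TensorProduct.commRight P S B)
  let σ : B ⊗[P] S →ₐ[B] S := Algebra.TensorProduct.lift (Algebra.ofId B S) (AlgHom.id P S)
    (fun _ _ => Commute.all _ _)
  let : Algebra (B ⊗[P] S) S := σ.toRingHom.toAlgebra
  have h2 : IsScalarTower B (B ⊗[P] S) S := IsScalarTower.of_algebraMap_eq' σ.comp_algebraMap.symm
  have h3 : IsScalarTower S (B ⊗[P] S) S :=
    IsScalarTower.of_algebraMap_eq fun x => (lift_one_tmul_aux P B S x).symm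
  have h4 : Algebra.Etale (B ⊗[P] S) S := Algebra.Etale.of_restrictScalars S _ _
  have h5 : Module.Flat (B ⊗[P] S) S := Algebra.Smooth.flat _ _
  exact Module.Flat.trans B (B ⊗[P] S) S

end Flatness

section Existence

variable {K : Type u} [Field K] {g : ℕ}

/-- Power series are flat over polynomials. -/
theorem flat_mvPowerSeries :
    Module.Flat (MvPolynomial (Fin g) K) (MvPowerSeries (Fin g) K) :=
  .of_linearEquiv (MvPowerSeries.toAdicCompletionAlgEquiv (Fin g) K).toLinearEquiv

theorem algebraMap_eq_coe (p : MvPolynomial (Fin g) K) :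
    algebraMap (MvPolynomial (Fin g) K) (MvPowerSeries (Fin g) K) p =
      (p : MvPowerSeries (Fin g) K) := by
  rw [MvPowerSeries.algebraMap_apply', Algebra.algebraMap_self, MvPowerSeries.map_id,
    RingHom.id_apply]

/-- translation of the coordinates of affine space -/
def translate (c : Fin g → K) : MvPolynomial (Fin g) K ≃ₐ[K] MvPolynomial (Fin g) K :=
  AlgEquiv.ofAlgHom
    (MvPolynomial.aeval fun i => MvPolynomial.X i + MvPolynomial.C (c i))
    (MvPolynomial.aeval fun i => MvPolynomial.X i - MvPolynomial.C (c i))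
    (by ext i; simp) (by ext i; simp)

@[simp] theorem translate_X (c : Fin g → K) (i : Fin g) :
    translate c (MvPolynomial.X i) = MvPolynomial.X i + MvPolynomial.C (c i) := by
  simp [translate]

@[simp] theorem translate_symm_X (c : Fin g → K) (i : Fin g) :
    (translate c).symm (MvPolynomial.X i) = MvPolynomial.X i - MvPolynomial.C (c i) := by
  simp [translate]

variable (g) in
theorem exists_etale (B : Type u) [CommRing B] [Algebra K B]
    [Algebra.IsStandardSmoothOfRelativeDimension g K B] (w : B →ₐ[K] K) :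
    ∃ φ : MvPolynomial (Fin g) K →ₐ[K] B, φ.toRingHom.Etale ∧
      ∀ i, w (φ (MvPolynomial.X i)) = 0 := by
  obtain ⟨φ, hφ⟩ := Algebra.IsStandardSmoothOfRelativeDimension.exists_etale_mvPolynomial g K B
  refine ⟨φ.comp (translate fun i => w (φ (MvPolynomial.X i))).symm.toAlgHom, ?_, ?_⟩
  · have h1 : (translate fun i => w (φ (MvPolynomial.X i))).symm.toAlgHom.toRingHom.Etale :=
      RingHom.Etale.of_bijective (AlgEquiv.bijective _)
    exact RingHom.Etale.stableUnderComposition _ _ h1 hφ
  · intro i
    rw [AlgHom.comp_apply]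
    have h2 : (translate fun i => w (φ (MvPolynomial.X i))).symm.toAlgHom (MvPolynomial.X i) =
      MvPolynomial.X i - MvPolynomial.C (w (φ (MvPolynomial.X i))) := translate_symm_X _ i
    rw [h2, map_sub, map_sub, ← MvPolynomial.algebraMap_eq, AlgHom.commutes, AlgHom.commutes,
      Algebra.algebraMap_self, RingHom.id_apply, sub_self]

variable (g) in
/-- Formal coordinates at a rational point of a standard smooth algebra. -/
theorem exists_coord' (B : Type u) [CommRing B] [Algebra K B]
    [Algebra.IsStandardSmoothOfRelativeDimension g K B] (w : B →ₐ[K] K) :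
    ∃ (ι : B →ₐ[K] MvPowerSeries (Fin g) K) (t : Fin g → B),
      (∀ i, ι (t i) = MvPowerSeries.X i) ∧
      (∀ b, MvPowerSeries.constantCoeff (ι b) = w b) ∧ ι.toRingHom.Flat ∧
      (MvPolynomial.aeval t : MvPolynomial (Fin g) K →ₐ[K] B).toRingHom.Etale := by
  obtain ⟨φ, hφ, hφ0⟩ := exists_etale g B w
  let : Algebra (MvPolynomial (Fin g) K) B := φ.toRingHom.toAlgebra
  have hst : IsScalarTower K (MvPolynomial (Fin g) K) B :=
    IsScalarTower.of_algebraMap_eq' φ.comp_algebraMap.symm
  have het : Algebra.Etale (MvPolynomial (Fin g) K) B := hφ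
  have hφa : ∀ p, algebraMap (MvPolynomial (Fin g) K) B p = φ p := fun p => rfl
  -- the reduction
  let I : Ideal (MvPowerSeries (Fin g) K) := IsLocalRing.maximalIdeal (MvPowerSeries (Fin g) K)
  let f0 : B →+* MvPowerSeries (Fin g) K ⧸ I :=
    ((Ideal.Quotient.mk I).comp MvPowerSeries.C).comp w.toRingHom
  have hf0a : ∀ b, f0 b = Ideal.Quotient.mk I (MvPowerSeries.C (w b)) := fun b => rfl
  have hf0 : ∀ p : MvPolynomial (Fin g) K, f0 (algebraMap _ B p) =
      algebraMap (MvPolynomial (Fin g) K) (MvPowerSeries (Fin g) K ⧸ I) p := by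
    intro p
    have : (f0.comp (algebraMap (MvPolynomial (Fin g) K) B)) =
        algebraMap (MvPolynomial (Fin g) K) (MvPowerSeries (Fin g) K ⧸ I) := by
      apply MvPolynomial.ringHom_ext
      · intro r
        rw [RingHom.comp_apply, hφa, hf0a, ← MvPolynomial.algebraMap_eq, AlgHom.commutes,
          AlgHom.commutes, IsScalarTower.algebraMap_apply (MvPolynomial (Fin g) K)
            (MvPowerSeries (Fin g) K) (MvPowerSeries (Fin g) K ⧸ I),
          Algebra.algebraMap_self, RingHom.id_apply, MvPolynomial.algebraMap_eq]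
        rw [algebraMap_eq_coe, MvPolynomial.coe_C]
        rfl
      · intro i
        rw [RingHom.comp_apply, hφa, hf0a, hφ0,
          IsScalarTower.algebraMap_apply (MvPolynomial (Fin g) K)
            (MvPowerSeries (Fin g) K) (MvPowerSeries (Fin g) K ⧸ I), map_zero, map_zero]
        symm
        refine Ideal.Quotient.eq_zero_iff_mem.mpr ?_
        rw [mem_maximalIdeal_iff, algebraMap_eq_coe, MvPolynomial.coe_X, constantCoeff_X]
    exact congrArg (fun q => q p) this
  let f : B →ₐ[MvPolynomial (Fin g) K] MvPowerSeries (Fin g) K ⧸ I := ⟨f0, hf0⟩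
  obtain ⟨ι, hι⟩ := Algebra.FormallySmooth.exists_mkₐ_comp_eq_of_isAdicComplete f
  have hφt : MvPolynomial.aeval (fun i => φ (MvPolynomial.X i)) = φ := by
    ext i
    simp
  refine ⟨ι.restrictScalars K, fun i => φ (MvPolynomial.X i), ?_, ?_, ?_, hφt.symm ▸ hφ⟩
  · intro i
    have h1 := ι.commutes (MvPolynomial.X i)
    rw [hφa] at h1
    refine h1.trans ?_
    rw [algebraMap_eq_coe, MvPolynomial.coe_X]
  · intro b
    have h1 : Ideal.Quotient.mk I (ι b) = f0 b := congrArg (fun q => q b) hι
    rw [hf0a, Ideal.Quotient.eq, mem_maximalIdeal_iff, map_sub, constantCoeff_C, sub_eq_zero] at h1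
    exact h1
  · let : Algebra B (MvPowerSeries (Fin g) K) := ι.toRingHom.toAlgebra
    have h1 : IsScalarTower (MvPolynomial (Fin g) K) B (MvPowerSeries (Fin g) K) :=
      IsScalarTower.of_algebraMap_eq' ι.comp_algebraMap.symm
    have h2 := flat_mvPowerSeries (K := K) (g := g)
    exact flat_of_etale (MvPolynomial (Fin g) K) B (MvPowerSeries (Fin g) K)

variable (g) in
/-- Formal coordinates at a rational point of a standard smooth algebra. -/
theorem exists_coord (B : Type u) [CommRing B] [Algebra K B]
    [Algebra.IsStandardSmoothOfRelativeDimension g K B] (w : B →ₐ[K] K) :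
    ∃ (ι : B →ₐ[K] MvPowerSeries (Fin g) K) (t : Fin g → B),
      (∀ i, ι (t i) = MvPowerSeries.X i) ∧
      (∀ b, MvPowerSeries.constantCoeff (ι b) = w b) ∧ ι.toRingHom.Flat := by
  obtain ⟨ι, t, h1, h2, h3, -⟩ := exists_coord' g B w
  exact ⟨ι, t, h1, h2, h3⟩

end Existence

/-- Formal coordinates on a local `K`-algebra `R` with residue field `K`: a flat local homomorphism
to a power series ring such that the variables come from `R`. -/
structure Coord (K : Type u) [Field K] (g : ℕ) (R : Type v) [CommRing R] [Algebra K R] where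
  /-- the homomorphism to the power series ring -/
  ι : R →ₐ[K] MvPowerSeries (Fin g) K
  /-- the coordinates -/
  t : Fin g → R
  ι_t : ∀ i, ι (t i) = MvPowerSeries.X i
  flat : ι.toRingHom.Flat
  isUnit : ∀ x, MvPowerSeries.constantCoeff (ι x) ≠ 0 → IsUnit x

section Localization

variable {K : Type u} [Field K] (g : ℕ)

theorem exists_coord_localization' (B : Type u) [CommRing B] [Algebra K B]
    [Algebra.IsStandardSmoothOfRelativeDimension g K B] (w : B →ₐ[K] K)
    (𝔪 : Ideal B) [h𝔪 : 𝔪.IsPrime] (hw : ∀ b, b ∈ 𝔪 ↔ w b = 0)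
    (R : Type v) [CommRing R] [Algebra B R] [Algebra K R] [IsScalarTower K B R]
    [IsLocalization.AtPrime R 𝔪] :
    ∃ (C : Coord K g R) (t : Fin g → B),
      (MvPolynomial.aeval t : MvPolynomial (Fin g) K →ₐ[K] B).toRingHom.Etale ∧
      (∀ i, C.t i = algebraMap B R (t i)) ∧
      ∀ b, MvPowerSeries.constantCoeff (C.ι (algebraMap B R b)) = w b := by
  obtain ⟨ι, t, ht, hι, hflat, het⟩ := exists_coord' g B w
  have hunit : ∀ y : 𝔪.primeCompl, IsUnit (ι y) := by
    intro y
    rw [MvPowerSeries.isUnit_iff_constantCoeff, hι]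
    exact isUnit_iff_ne_zero.mpr fun h => y.2 ((hw _).mpr h)
  let ι' : R →ₐ[K] MvPowerSeries (Fin g) K := IsLocalization.liftAlgHom (M := 𝔪.primeCompl) hunit
  have hι' : ∀ b, ι' (algebraMap B R b) = ι b := fun b => IsLocalization.lift_eq _ b
  refine ⟨⟨ι', fun i => algebraMap B R (t i), fun i => by rw [hι', ht], ?_, ?_⟩, t, het,
    fun _ => rfl, fun b => ?_⟩
  · let : Algebra B (MvPowerSeries (Fin g) K) := ι.toRingHom.toAlgebra
    let : Algebra R (MvPowerSeries (Fin g) K) := ι'.toRingHom.toAlgebra
    have h1 : IsScalarTower B R (MvPowerSeries (Fin g) K) :=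
      IsScalarTower.of_algebraMap_eq fun b => (hι' b).symm
    have h2 : Module.Flat B (MvPowerSeries (Fin g) K) := hflat
    exact (Module.flat_iff_of_isLocalization R 𝔪.primeCompl _).mpr h2
  · intro x hx
    obtain ⟨b, s, rfl⟩ := IsLocalization.exists_mk'_eq 𝔪.primeCompl x
    have h1 : ι' (IsLocalization.mk' R b s) * ι s = ι b := by
      rw [← hι', ← hι', ← map_mul, IsLocalization.mk'_spec]
    have h2 : w b ≠ 0 := by
      rw [← hι, ← h1, map_mul]
      refine mul_ne_zero hx ?_
      rw [hι]
      exact fun h => s.2 ((hw _).mpr h)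
    have h3 : b ∈ 𝔪.primeCompl := fun h => h2 ((hw _).mp h)
    exact (IsLocalization.AtPrime.isUnit_mk'_iff R 𝔪 b s).mpr h3
  · change MvPowerSeries.constantCoeff (ι' (algebraMap B R b)) = w b
    rw [hι', hι]

theorem exists_coord_localization (B : Type u) [CommRing B] [Algebra K B]
    [Algebra.IsStandardSmoothOfRelativeDimension g K B] (w : B →ₐ[K] K)
    (𝔪 : Ideal B) [h𝔪 : 𝔪.IsPrime] (hw : ∀ b, b ∈ 𝔪 ↔ w b = 0)
    (R : Type v) [CommRing R] [Algebra B R] [Algebra K R] [IsScalarTower K B R]
    [IsLocalization.AtPrime R 𝔪] :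
    ∃ C : Coord K g R, ∀ b, MvPowerSeries.constantCoeff (C.ι (algebraMap B R b)) = w b := by
  obtain ⟨C, t, -, -, h⟩ := exists_coord_localization' g B w 𝔪 hw R
  exact ⟨C, h⟩

end Localization

namespace Coord

variable {K : Type u} [Field K] {g : ℕ} {R : Type v} [CommRing R] [Algebra K R]
  (C : Coord K g R)

/-- The residue map. -/
def res : R →ₐ[K] K where
  toRingHom := (MvPowerSeries.constantCoeff).comp C.ι.toRingHom
  commutes' x := by
    change MvPowerSeries.constantCoeff (C.ι (algebraMap K R x)) = x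
    rw [AlgHom.commutes, MvPowerSeries.algebraMap_apply, Algebra.algebraMap_self,
      RingHom.id_apply, constantCoeff_C]

theorem res_apply (x : R) : C.res x = MvPowerSeries.constantCoeff (C.ι x) := rfl

include C in
theorem nontrivial : Nontrivial R := C.ι.toRingHom.domain_nontrivial

theorem isUnit_iff (x : R) : IsUnit x ↔ C.res x ≠ 0 :=
  ⟨fun h => (h.map C.res).ne_zero, C.isUnit x⟩

include C in
theorem isLocalRing : IsLocalRing R := by
  have := C.nontrivial
  refine IsLocalRing.of_nonunits_add ?_
  intro a b ha hb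
  rw [mem_nonunits_iff, C.isUnit_iff, not_not] at *
  rw [map_add, ha, hb, add_zero]

theorem mem_maximalIdeal_iff [IsLocalRing R] (x : R) :
    x ∈ IsLocalRing.maximalIdeal R ↔ C.res x = 0 := by
  rw [IsLocalRing.mem_maximalIdeal, mem_nonunits_iff, C.isUnit_iff, not_not]

theorem isLocalHom : IsLocalHom C.ι.toRingHom := by
  refine ⟨fun a ha => (C.isUnit_iff a).mpr ?_⟩
  rw [C.res_apply]
  exact (MvPowerSeries.isUnit_iff_constantCoeff.mp ha).ne_zero

theorem faithfullyFlat [IsLocalRing R] :
    letI := C.ι.toRingHom.toAlgebra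
    Module.FaithfullyFlat R (MvPowerSeries (Fin g) K) := by
  let : Algebra R (MvPowerSeries (Fin g) K) := C.ι.toRingHom.toAlgebra
  have h1 : Module.Flat R (MvPowerSeries (Fin g) K) := C.flat
  have h2 : IsLocalHom (algebraMap R (MvPowerSeries (Fin g) K)) := C.isLocalHom
  exact Module.FaithfullyFlat.of_flat_of_isLocalHom

theorem comap_map (I : Ideal R) : (I.map C.ι.toRingHom).comap C.ι.toRingHom = I := by
  have := C.isLocalRing
  let : Algebra R (MvPowerSeries (Fin g) K) := C.ι.toRingHom.toAlgebra
  have h1 := C.faithfullyFlat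
  exact Ideal.comap_map_eq_self_of_faithfullyFlat I

theorem map_injective : Function.Injective (Ideal.map C.ι.toRingHom) := by
  intro I J h
  rw [← C.comap_map I, ← C.comap_map J, h]

theorem ι_injective : Function.Injective C.ι := by
  have h1 := C.comap_map ⊥
  rw [Ideal.map_bot] at h1
  exact (RingHom.injective_iff_ker_eq_bot C.ι.toRingHom).mpr h1

theorem ι_dvd_iff {a b : R} : C.ι a ∣ C.ι b ↔ a ∣ b := by
  constructor
  · intro h
    have h1 : b ∈ ((Ideal.span {a}).map C.ι.toRingHom).comap C.ι.toRingHom := by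
      rw [Ideal.mem_comap, Ideal.map_span, Set.image_singleton]
      exact Ideal.mem_span_singleton.mpr h
    rw [C.comap_map] at h1
    exact Ideal.mem_span_singleton.mp h1
  · rintro ⟨c, rfl⟩
    rw [map_mul]
    exact dvd_mul_right _ _

include C in
theorem isDomain : IsDomain R := C.ι_injective.isDomain C.ι

include C in
theorem isNoetherianRing : IsNoetherianRing R := by
  have h : IsNoetherianRing (MvPowerSeries (Fin g) K) := inferInstance
  rw [isNoetherianRing_iff, isNoetherian_iff'] at h ⊢
  exact StrictMono.wellFoundedGT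
    (f := fun I : Ideal R => I.map C.ι.toRingHom) 
    (Monotone.strictMono_of_injective (fun _ _ h => Ideal.map_mono h) C.map_injective)

theorem map_maximalIdeal_pow [IsLocalRing R] (T : ℕ) :
    ((IsLocalRing.maximalIdeal R) ^ T).map C.ι.toRingHom =
      (IsLocalRing.maximalIdeal (MvPowerSeries (Fin g) K)) ^ T := by
  rw [Ideal.map_pow]
  congr 1
  apply le_antisymm
  · rw [Ideal.map_le_iff_le_comap]
    intro x hx
    rw [Ideal.mem_comap, PowerSeriesUFD.mem_maximalIdeal_iff]
    exact (C.mem_maximalIdeal_iff x).mp hx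
  · rw [PowerSeriesUFD.maximalIdeal_eq_span, Ideal.span_le]
    rintro _ ⟨i, rfl⟩
    rw [← C.ι_t]
    refine Ideal.mem_map_of_mem C.ι.toRingHom ?_
    rw [C.mem_maximalIdeal_iff, C.res_apply, C.ι_t, constantCoeff_X]

theorem maximalIdeal_eq_span [IsLocalRing R] :
    IsLocalRing.maximalIdeal R = Ideal.span (Set.range C.t) := by
  apply C.map_injective
  have h1 := C.map_maximalIdeal_pow 1
  rw [pow_one, pow_one] at h1
  rw [h1, Ideal.map_span, PowerSeriesUFD.maximalIdeal_eq_span, ← Set.range_comp]
  exact congrArg (fun f => Ideal.span (Set.range f)) (funext fun i => (C.ι_t i).symm)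

/-- The order of vanishing can be read off from the Taylor expansion. -/
theorem mem_maximalIdeal_pow_iff [IsLocalRing R] (T : ℕ) (x : R) :
    x ∈ (IsLocalRing.maximalIdeal R) ^ T ↔ (T : ℕ∞) ≤ (C.ι x).order := by
  rw [← PowerSeriesUFD.mem_maximalIdeal_pow_iff, ← C.map_maximalIdeal_pow]
  exact (Ideal.ext_iff.mp (C.comap_map _) x).symm

/-- An ideal whose extension to the power series ring is principal is principal. -/
theorem exists_eq_span_singleton (J : Ideal R) (c : MvPowerSeries (Fin g) K)
    (hJ : J.map C.ι.toRingHom = Ideal.span {c}) : ∃ j, J = Ideal.span {j} := by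
  by_cases hc : c = 0
  · refine ⟨0, C.map_injective ?_⟩
    rw [hJ, hc]
    simp
  by_contra hcon
  have h1 : J.map C.ι.toRingHom ≤
      Ideal.span {c} * IsLocalRing.maximalIdeal (MvPowerSeries (Fin g) K) := by
    rw [Ideal.map_le_iff_le_comap]
    intro j hj
    have h2 : C.ι j ∈ Ideal.span {c} := hJ ▸ Ideal.mem_map_of_mem C.ι.toRingHom hj
    obtain ⟨s, hs⟩ := Ideal.mem_span_singleton.mp h2
    have h3 : s ∈ IsLocalRing.maximalIdeal (MvPowerSeries (Fin g) K) := by
      rw [IsLocalRing.mem_maximalIdeal, mem_nonunits_iff]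
      intro hsu
      apply hcon
      refine ⟨j, C.map_injective ?_⟩
      rw [hJ, Ideal.map_span, Set.image_singleton]
      change Ideal.span {c} = Ideal.span {C.ι j}
      rw [hs]
      exact (Ideal.span_singleton_mul_right_unit hsu c).symm
    rw [Ideal.mem_comap]
    change C.ι j ∈ _
    rw [hs]
    exact Ideal.mul_mem_mul (Ideal.mem_span_singleton_self c) h3
  have h2 : c ∈ Ideal.span {c} * IsLocalRing.maximalIdeal (MvPowerSeries (Fin g) K) :=
    h1 (hJ ▸ Ideal.mem_span_singleton_self c)
  obtain ⟨m, hm, hcm⟩ := Ideal.mem_span_singleton_mul.mp h2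
  have h3 : m = 1 := mul_left_cancel₀ hc (hcm.trans (mul_one c).symm)
  rw [h3] at hm
  exact (IsLocalRing.maximalIdeal.isMaximal _).ne_top ((Ideal.eq_top_iff_one _).mpr hm)

/-- The colon ideal `(b : a)`. -/
def colon (R : Type*) [CommRing R] (a b : R) : Ideal R where
  carrier := {x | b ∣ a * x}
  add_mem' := by
    intro x y hx hy
    simp only [Set.mem_ofPred_eq, mul_add] at *
    exact dvd_add hx hy
  zero_mem' := by simp
  smul_mem' := by
    intro r x hx
    simp only [Set.mem_ofPred_eq, smul_eq_mul] at *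
    rw [mul_left_comm]
    exact hx.mul_left r

theorem mem_colon {R : Type*} [CommRing R] {a b x : R} : x ∈ colon R a b ↔ b ∣ a * x := Iff.rfl

theorem map_colon (a b : R) : (colon R a b).map C.ι.toRingHom =
    colon (MvPowerSeries (Fin g) K) (C.ι a) (C.ι b) := by
  apply le_antisymm
  · rw [Ideal.map_le_iff_le_comap]
    intro x hx
    rw [Ideal.mem_comap]
    change C.ι b ∣ C.ι a * C.ι x
    rw [← map_mul]
    exact map_dvd C.ι hx
  · intro x hx
    obtain ⟨y, hy⟩ := mem_colon.mp hx
    let : Algebra R (MvPowerSeries (Fin g) K) := C.ι.toRingHom.toAlgebra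
    have h1 : Module.Flat R (MvPowerSeries (Fin g) K) := C.flat
    have hsmul : ∀ (r : R) (z : MvPowerSeries (Fin g) K), r • z = C.ι r * z := fun _ _ => rfl
    have h2 : ∑ i : Fin 2, (![a, -b] i) • (![x, y] i) = 0 := by
      rw [Fin.sum_univ_two]
      simp only [Matrix.cons_val_zero, Matrix.cons_val_one, hsmul, map_neg]
      rw [hy]
      ring
    obtain ⟨k, p, z, hz, hp⟩ := Module.Flat.isTrivialRelation_of_sum_smul_eq_zero (R := R)
      (M := MvPowerSeries (Fin g) K) (f := ![a, -b]) (x := ![x, y]) h2
    have h3 : x = ∑ j, p 0 j • z j := hz 0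
    rw [h3]
    refine Ideal.sum_mem _ fun j _ => ?_
    rw [hsmul, mul_comm]
    refine Ideal.mul_mem_left _ _ (Ideal.mem_map_of_mem C.ι.toRingHom ?_)
    rw [mem_colon]
    have h4 := hp j
    rw [Fin.sum_univ_two] at h4
    simp only [Matrix.cons_val_zero, Matrix.cons_val_one] at h4
    refine ⟨p 1 j, ?_⟩
    linear_combination h4

theorem exists_colon_eq_of_ufd {S : Type*} [CommRing S] [IsDomain S]
    [UniqueFactorizationMonoid S] (a b : S) : ∃ c, colon S a b = Ideal.span {c} := by
  by_cases ha : a = 0
  · refine ⟨1, ?_⟩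
    ext x
    rw [mem_colon, Ideal.mem_span_singleton, ha, zero_mul]
    simp
  obtain ⟨a', b', d, hrel, hda, hdb⟩ := UniqueFactorizationMonoid.exists_reduced_factors a ha b
  have hd : d ≠ 0 := by
    rintro rfl
    exact ha (by rw [← hda, zero_mul])
  refine ⟨b', ?_⟩
  ext x
  rw [mem_colon, Ideal.mem_span_singleton, ← hda, ← hdb, mul_assoc, mul_dvd_mul_iff_left hd]
  exact ⟨fun h => hrel.symm.dvd_of_dvd_mul_left h, fun h => h.mul_left _⟩

include C in
/-- Colon ideals of pairs of elements are principal. -/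
theorem exists_colon_eq [Infinite K] (a b : R) : ∃ c, colon R a b = Ideal.span {c} := by
  have := PowerSeriesUFD.ufd (K := K) (Fin g)
  obtain ⟨c, hc⟩ := exists_colon_eq_of_ufd (C.ι a) (C.ι b)
  exact C.exists_eq_span_singleton _ c ((C.map_colon a b).trans hc)

include C in
theorem exists_dvd_mul_iff [Infinite K] (a b : R) : ∃ c, ∀ x, b ∣ a * x ↔ c ∣ x := by
  obtain ⟨c, hc⟩ := C.exists_colon_eq a b
  refine ⟨c, fun x => ?_⟩
  rw [← mem_colon, hc, Ideal.mem_span_singleton]

include C in
/-- Local rings of smooth varieties over an infinite field at rational points are factorial. -/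
theorem uniqueFactorizationMonoid [Infinite K] [IsDomain R] : UniqueFactorizationMonoid R := by
  have := C.isNoetherianRing
  refine { irreducible_iff_prime := ?_ }
  intro p
  refine ⟨fun hp => ⟨hp.ne_zero, hp.not_isUnit, fun a b hab => ?_⟩, Prime.irreducible⟩
  obtain ⟨c, hc⟩ := C.exists_dvd_mul_iff a p
  have h1 : c ∣ p := (hc p).mp (dvd_mul_left _ _)
  have h2 : c ∣ b := (hc b).mp hab
  rcases hp.dvd_iff.mp h1 with h | h
  · left
    have h3 := (hc 1).mpr h.dvd
    rwa [mul_one] at h3
  · right
    exact h.dvd.trans h2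

end Coord

section Algebraic

variable {K : Type u} [Field K] {g : ℕ}

/-- If `t` are étale coordinates on a domain `B` then the fraction field of `B` is finite over the
field generated by `t`. -/
theorem finite_adjoin_of_etale (B F : Type u) [CommRing B] [Field F] [Algebra K B] [Algebra K F]
    [Algebra B F] [IsScalarTower K B F] [IsFractionRing B F] (t : Fin g → B)
    (ht : (MvPolynomial.aeval t : MvPolynomial (Fin g) K →ₐ[K] B).toRingHom.Etale) :
    Module.Finite (IntermediateField.adjoin K (Set.range fun i => algebraMap B F (t i))) F := by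
  let P := MvPolynomial (Fin g) K
  let L := IntermediateField.adjoin K (Set.range fun i => algebraMap B F (t i))
  let φ : P →ₐ[K] B := MvPolynomial.aeval t
  let ψ : P →ₐ[K] L := MvPolynomial.aeval fun i =>
    (⟨algebraMap B F (t i), IntermediateField.subset_adjoin _ _ ⟨i, rfl⟩⟩ : L)
  let : Algebra P B := φ.toRingHom.toAlgebra
  let : Algebra P L := ψ.toRingHom.toAlgebra
  let : Algebra P F := ((algebraMap B F).comp φ.toRingHom).toAlgebra
  have h1 : IsScalarTower P B F := IsScalarTower.of_algebraMap_eq' rfl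
  have h2 : IsScalarTower P L F := by
    apply IsScalarTower.of_algebraMap_eq'
    change ((algebraMap B F).comp φ.toRingHom) = (algebraMap L F).comp ψ.toRingHom
    have h3 : (IsScalarTower.toAlgHom K B F).comp φ = (IsScalarTower.toAlgHom K L F).comp ψ := by
      ext i
      simp [φ, ψ]
    exact congrArg AlgHom.toRingHom h3
  have h3 : Algebra.Etale P B := ht
  have h4 : Algebra.FormallyUnramified B F :=
    Algebra.FormallyUnramified.of_isLocalization (nonZeroDivisors B)
  have h5 : Algebra.FormallyUnramified P F := Algebra.FormallyUnramified.comp P B F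
  have h6 : Algebra.EssFiniteType B F := Algebra.EssFiniteType.of_isLocalization _ (nonZeroDivisors B)
  have h7 : Algebra.EssFiniteType P F := Algebra.EssFiniteType.comp P B F
  have h8 : Algebra.FormallyUnramified L F := Algebra.FormallyUnramified.of_restrictScalars P L F
  have h9 : Algebra.EssFiniteType L F := Algebra.EssFiniteType.of_comp P L F
  exact Algebra.FormallyUnramified.finite_of_free (R := L) (S := F)

end Algebraic

end Fermat.Agent.S26T.SmoothCoords
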